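import Mathlib
import Fermat.Agent.H53.FrobeniusExists
import Fermat.Agent.H79.GlobalRamified
import Fermat.Agent.H73.ChebBridgeCore
import Fermat.Agent.H8.InertiaBasic

/-!
# P-CFT / BRAUER-S, row BS-6 (helper49), part 1: Frobenius generates the unramified quotient
of the decomposition group

For a finite Galois `K ⊆ ℚ̄` on which the inertia group of the place `A` of `ℚ̄` acts trivially,
the restriction to `K` of every element of the decomposition group of `A` is a power of the
restriction of a Frobenius element at `A` (`restrict_mem_zpowers_frob`).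
-/

set_option autoImplicit false
set_option linter.style.haveILetI false
set_option maxSynthPendingDepth 3

namespace Fermat.Agent.H49.BS6

open Fermat.Agent.H53 Fermat.Agent.H79
open scoped Pointwise NumberField

local notation "Qb" => AlgebraicClosure ℚ
local notation "GQ" => (AlgebraicClosure ℚ ≃ₐ[ℚ] AlgebraicClosure ℚ)

/-- The inclusion of the integers of `K` into the ring of all algebraic integers. -/
noncomputable def intIncl (K : IntermediateField ℚ Qb) : 𝓞 K →+* intRing Qb where
  toFun x := ⟨((x : K) : Qb), map_isIntegral_int (algebraMap K Qb) x.2⟩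
  map_one' := by ext; simp
  map_mul' x y := by ext; simp
  map_zero' := by ext; simp
  map_add' x y := by ext; simp

theorem coe_intIncl (K : IntermediateField ℚ Qb) (x : 𝓞 K) :
    ((intIncl K x : intRing Qb) : Qb) = ((x : K) : Qb) := rfl

/-- The center of `A` on the integers of `K`. -/
noncomputable def centerK (K : IntermediateField ℚ Qb) (A : ValuationSubring Qb) :
    Ideal (𝓞 K) :=
  Ideal.comap (intIncl K) (centerIdeal A)

instance centerK_isPrime (K : IntermediateField ℚ Qb) (A : ValuationSubring Qb) :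
    (centerK K A).IsPrime :=
  Ideal.comap_isPrime _ _

/-- A finite extension of `ℚ` inside `ℚ̄` is a number field (not an instance). -/
theorem numberField_of_fd (K : IntermediateField ℚ Qb) [FiniteDimensional ℚ K] :
    NumberField K where
  to_charZero := inferInstance
  to_finiteDimensional := inferInstance

theorem mem_centerK_iff (K : IntermediateField ℚ Qb) (A : ValuationSubring Qb) (x : 𝓞 K) :
    x ∈ centerK K A ↔ ((x : K) : Qb) ∈ A.nonunits := Iff.rfl

theorem natCast_mem_centerK (K : IntermediateField ℚ Qb) (A : ValuationSubring Qb) {q : ℕ}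
    (hA : A.LiesOverPrime q) : (q : 𝓞 K) ∈ centerK K A := by
  rw [mem_centerK_iff]
  have hA' : (q : Qb) ∈ A.nonunits := hA
  simpa using hA'

/-- Restriction to `K` commutes with the inclusion of the integers. -/
theorem coe_restrict_smul (K : IntermediateField ℚ Qb) [Normal ℚ K] (τ : GQ) (y : 𝓞 K) :
    ((((AlgEquiv.restrictNormalHom K τ) • y : 𝓞 K) : K) : Qb) = τ ((y : K) : Qb) :=
  AlgEquiv.restrictNormal_commutes τ K (y : K)

/-- If the inertia group of `A` acts trivially on the finite Galois `K`, the center of `A` on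
`𝓞 K` is unramified over `ℤ`. -/
theorem isUnramifiedAt_centerK (K : IntermediateField ℚ Qb) [FiniteDimensional ℚ K]
    [IsGalois ℚ K] {q : ℕ} (hq : q.Prime) (A : ValuationSubring Qb) (hA : A.LiesOverPrime q)
    (hI : A.inertiaSubgroupIn ℚ ≤ K.fixingSubgroup) :
    Algebra.IsUnramifiedAt ℤ (centerK K A) := by
  haveI := isGalois_algebraicClosure_rat
  haveI := numberField_of_fd K
  by_contra hram
  obtain ⟨τ, hτ1, hτ⟩ := exists_inertia_ne_one K (centerK K A) q hq (natCast_mem_centerK K A hA)
    hram
  haveI : Normal ℚ Qb := IsGalois.to_normal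
  obtain ⟨σ₀, hσ₀⟩ := AlgEquiv.restrictNormalHom_surjective Qb τ
  have hστ : ∀ x : K, σ₀ (x : Qb) = ((τ x : K) : Qb) := by
    intro x
    rw [← hσ₀]
    exact (AlgEquiv.restrictNormal_commutes σ₀ K x).symm
  have hσ₀1 : σ₀ ∈ K.fixingSubgroup → τ = 1 := by
    intro hmem
    refine AlgEquiv.ext fun x => ?_
    have h1 := hmem x
    have h2 := hστ x
    apply Subtype.ext
    rw [← h2]
    exact h1
  have hNc : IsClosed (K.fixingSubgroup : Set GQ) := IntermediateField.fixingSubgroup_isClosed K
  haveI : K.fixingSubgroup.Normal :=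
    (InfiniteGalois.normal_iff_isGalois K).mpr ‹IsGalois ℚ K›
  have key : ∀ b : intRing Qb, (∀ n ∈ K.fixingSubgroup, n • b = b) →
      σ₀ • b - b ∈ centerIdeal A := by
    intro b hb
    have hbK : (b : Qb) ∈ K := by
      rw [← InfiniteGalois.fixedField_fixingSubgroup K, IntermediateField.mem_fixedField_iff]
      intro n hn
      exact congrArg Subtype.val (hb n hn)
    have hbint : IsIntegral ℤ (⟨(b : Qb), hbK⟩ : K) := by
      have := b.2
      rw [mem_intRing_iff] at this
      exact (isIntegral_algebraMap_iff (FaithfulSMul.algebraMap_injective K Qb)).mp this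
    let x : 𝓞 K := ⟨⟨(b : Qb), hbK⟩, hbint⟩
    have hy := hτ x
    rw [mem_centerK_iff] at hy
    rw [mem_centerIdeal_iff]
    have h3 := hστ (x : K)
    have h4 : ((((τ • x - x : 𝓞 K)) : K) : Qb) = σ₀ (b : Qb) - (b : Qb) := by
      change ((τ (x : K) - (x : K) : K) : Qb) = σ₀ (b : Qb) - (b : Qb)
      change σ₀ (b : Qb) = ((τ (x : K) : K) : Qb) at h3
      rw [h3]
      rfl
    rw [h4] at hy
    exact hy
  obtain ⟨ρ, hρ, hmem⟩ := exists_mul_mem_inertiaSubgroupIn hq A hA K.fixingSubgroup hNc σ₀ key
  have h1 : ρ * σ₀ ∈ K.fixingSubgroup := hI hmem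
  have h2 : σ₀ ∈ K.fixingSubgroup := by
    have := mul_mem (inv_mem hρ) h1
    simpa using this
  exact hτ1 (hσ₀1 h2)

/-- The decomposition group preserves the maximal ideal. -/
theorem apply_mem_nonunits_iff {A : ValuationSubring Qb} {σ : GQ}
    (hσ : σ ∈ A.decompositionSubgroup ℚ) (x : Qb) : σ x ∈ A.nonunits ↔ x ∈ A.nonunits := by
  rw [ValuationSubring.mem_nonunits_iff_or, ValuationSubring.mem_nonunits_iff_or, ← map_inv₀,
    Fermat.Agent.H8.apply_mem_iff_of_mem_decomposition A hσ, map_eq_zero]

/-- A Frobenius element acts as `x ↦ x ^ q` modulo the maximal ideal. -/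
theorem frob_sub_pow_mem_nonunits {A : ValuationSubring Qb} {σ : GQ} {q : ℕ}
    (hσ : A.IsFrobeniusAt σ q) {a : Qb} (ha : a ∈ A) : σ a - a ^ q ∈ A.nonunits := by
  obtain ⟨hσD, hσF⟩ := hσ
  have h1 := hσF (IsLocalRing.residue A ⟨a, ha⟩)
  rw [← IsLocalRing.ResidueField.residue_smul, ← map_pow, ← sub_eq_zero, ← map_sub,
    IsLocalRing.residue_eq_zero_iff, ← ValuationSubring.coe_mem_nonunits_iff] at h1
  exact h1

/-- **Frobenius generates the unramified quotient of the decomposition group**: if the inertia
group of `A` acts trivially on the finite Galois `K`, the restriction to `K` of every element of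
the decomposition group of `A` is a power of the restriction of a Frobenius element. -/
theorem restrict_mem_zpowers_frob (K : IntermediateField ℚ Qb) [FiniteDimensional ℚ K]
    [IsGalois ℚ K] {q : ℕ} (hq : q.Prime) (A : ValuationSubring Qb) (hA : A.LiesOverPrime q)
    (hI : A.inertiaSubgroupIn ℚ ≤ K.fixingSubgroup)
    {Φ : GQ} (hΦ : A.IsFrobeniusAt Φ q) {g : GQ} (hg : g ∈ A.decompositionSubgroup ℚ) :
    AlgEquiv.restrictNormalHom K g ∈ Subgroup.zpowers (AlgEquiv.restrictNormalHom K Φ) := by
  haveI := numberField_of_fd K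
  have hun := isUnramifiedAt_centerK K hq A hA hI
  have hint : ∀ x : 𝓞 K, ((x : K) : Qb) ∈ A := fun x => intRing_le A (intIncl K x).2
  have hfrob : ∀ x : 𝓞 K, (AlgEquiv.restrictNormalHom K Φ) • x - x ^ q ∈ centerK K A := by
    intro x
    rw [mem_centerK_iff]
    have h1 := frob_sub_pow_mem_nonunits hΦ (hint x)
    have h2 : ((((AlgEquiv.restrictNormalHom K Φ) • x - x ^ q : 𝓞 K) : K) : Qb) =
        Φ ((x : K) : Qb) - ((x : K) : Qb) ^ q := by
      rw [← coe_restrict_smul K Φ x]
      simp
    rw [h2]
    exact h1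
  rw [Fermat.Agent.H73.ChebCore.zpowers_eq_stabilizer_of_frob hq (centerK K A)
    (natCast_mem_centerK K A hA) hun _ hfrob, MulAction.mem_stabilizer_iff]
  ext y
  rw [Ideal.mem_pointwise_smul_iff_inv_smul_mem, ← map_inv, mem_centerK_iff, mem_centerK_iff,
    coe_restrict_smul]
  exact apply_mem_nonunits_iff (inv_mem hg) _

end Fermat.Agent.H49.BS6
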