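import Mathlib
import Fermat.Agent.H49.BS6.FrobGen
import Fermat.Agent.H96.Cft.KummerDivisible
import Fermat.Agent.H81.Cyclo.Roots

/-!
# P-CFT / BRAUER-S, row BS-6 = GO2-UNR (helper49), part 2: unramified layers

* `isUnramifiedOutside_normalClosure` : the normal closure of a field unramified outside `S` is
  unramified outside `S`;
* `isUnramifiedOutside_adjoin_rootOfUnity` : `ℚ(ζ_N)` is unramified outside the primes
  dividing `N`;
* `exists_unram_layer` : for a place `A` of `ℚ̄` over `q ∉ S`, a field `F` unramified outside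
  `S` and a number field `L`, there are a finite Galois `F₂ ⊇ F` on which the inertia group of
  `A` acts trivially, a Frobenius element `Φ` at `A` and a power `u` of `Φ` fixing `F` and `L`
  whose restriction to `F₂` has order divisible by `p`.
-/

set_option autoImplicit false
set_option linter.style.haveILetI false
set_option maxSynthPendingDepth 3

namespace Fermat.Agent.H49.BS6

open Fermat.Agent.H53 Fermat.Agent.H79

local notation "Qb" => AlgebraicClosure ℚ
local notation "GQ" => (AlgebraicClosure ℚ ≃ₐ[ℚ] AlgebraicClosure ℚ)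

/-- The normal closure of a field unramified outside `S` is unramified outside `S`. -/
theorem isUnramifiedOutside_normalClosure {S : Finset Nat.Primes} {F : IntermediateField ℚ Qb}
    (hF : F.IsUnramifiedOutside S) :
    (IntermediateField.normalClosure ℚ F Qb).IsUnramifiedOutside S := by
  haveI := hF.1
  haveI := isGalois_algebraicClosure_rat
  refine ⟨normalClosure.is_finiteDimensional ℚ F _, fun q hq A hA => ?_⟩
  rw [← IntermediateField.le_iff_le]
  refine le_trans (le_of_eq (IntermediateField.normalClosure_def'' (F := ℚ) (K := F) (L := Qb))) ?_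
  refine iSup_le fun g => ?_
  rw [IntermediateField.le_iff_le]
  exact (Fermat.Agent.H96.Cft.isUnramifiedOutside_map hF g).2 q hq A hA

/-- `ℚ(ζ)`, `ζ ^ N = 1`, is unramified outside every set of primes containing the primes
dividing `N`. -/
theorem isUnramifiedOutside_adjoin_rootOfUnity {N : ℕ} (hN : N ≠ 0) {ζ : Qb} (hζ : ζ ^ N = 1)
    (S : Finset Nat.Primes) (hS : ∀ q : Nat.Primes, (q : ℕ) ∣ N → q ∈ S) :
    (IntermediateField.adjoin ℚ {ζ}).IsUnramifiedOutside S := by
  refine ⟨IntermediateField.adjoin.finiteDimensional ?_, fun q hq A hA => ?_⟩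
  · refine ⟨Polynomial.X ^ N - 1, Polynomial.monic_X_pow_sub_C 1 hN, ?_⟩
    simp [hζ]
  · rw [← IntermediateField.le_iff_le, IntermediateField.adjoin_le_iff]
    rintro _ rfl
    rw [SetLike.mem_coe, IntermediateField.mem_fixedField_iff]
    intro σ hσ
    exact Fermat.Agent.H81.Cyclo.inertia_root_of_unity q.2 hA hσ (fun h => hq (hS q h)) hζ

/-- Powers of a Frobenius element on roots of unity of order prime to `q`. -/
theorem frob_pow_rootOfUnity {A : ValuationSubring Qb} {q : ℕ} (hq : q.Prime)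
    (hA : A.LiesOverPrime q) {Φ : GQ} (hΦ : A.IsFrobeniusAt Φ q) {N : ℕ} (hN : ¬ q ∣ N)
    {ζ : Qb} (hζ : ζ ^ N = 1) (j : ℕ) : (Φ ^ j) ζ = ζ ^ (q ^ j) := by
  induction j with
  | zero => simp
  | succ j ih =>
    rw [pow_succ, AlgEquiv.mul_apply,
      Fermat.Agent.H81.Cyclo.frobenius_root_of_unity hq hA hΦ hN hζ, map_pow, ih, ← pow_mul,
      pow_succ]

/-- `Q ^ a - 1 ∣ Q ^ b - 1` implies `a ∣ b`. -/
theorem dvd_of_pow_sub_one_dvd {Q a b : ℕ} (hQ : 1 < Q) (h : Q ^ a - 1 ∣ Q ^ b - 1) :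
    a ∣ b := by
  have h1 := Nat.pow_sub_one_gcd_pow_sub_one Q a b
  rw [Nat.gcd_eq_left h] at h1
  have ha : 1 ≤ Q ^ a := Nat.one_le_pow _ _ (by omega)
  have hg : 1 ≤ Q ^ (Nat.gcd a b) := Nat.one_le_pow _ _ (by omega)
  have h2 : Q ^ a = Q ^ (Nat.gcd a b) := by omega
  have h3 : a = Nat.gcd a b := Nat.pow_right_injective hQ h2
  rw [h3]
  exact Nat.gcd_dvd_right a b

/-- The kernel of the restriction to a normal `E` is the fixing subgroup of `E`. -/
theorem restrict_eq_one_iff (E : IntermediateField ℚ Qb) [Normal ℚ E] (σ : GQ) :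
    AlgEquiv.restrictNormalHom E σ = 1 ↔ σ ∈ E.fixingSubgroup := by
  rw [IntermediateField.mem_fixingSubgroup_iff]
  constructor
  · intro h x hx
    have h1 := AlgEquiv.restrictNormal_commutes σ E ⟨x, hx⟩
    have h2 : AlgEquiv.restrictNormal σ E = 1 := h
    rw [h2] at h1
    exact h1.symm
  · intro h
    refine AlgEquiv.ext fun x => Subtype.ext ?_
    have h1 := AlgEquiv.restrictNormal_commutes σ E x
    exact h1.trans (h x x.2)

/-- `q` is prime to `q ^ n - 1`. -/
theorem not_dvd_pow_sub_one {q n : ℕ} (hq : q.Prime) (hn : 0 < n) : ¬ q ∣ q ^ n - 1 := by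
  intro h
  have h1 : q ∣ q ^ n := dvd_pow_self q hn.ne'
  have hpos : 1 ≤ q ^ n := Nat.one_le_pow _ _ hq.pos
  have h3 : q ∣ q ^ n - (q ^ n - 1) := Nat.dvd_sub h1 h
  have h4 : q ^ n - (q ^ n - 1) = 1 := by omega
  rw [h4] at h3
  exact hq.one_lt.ne' (Nat.dvd_one.1 h3)

/-- **Unramified layers of degree divisible by `p`**: for a place `A` of `ℚ̄` over `q ∉ S`,
a field `F` unramified outside `S` and a number field `L`, there are a finite Galois `F₂ ⊇ F`
on which the inertia group of `A` acts trivially, a Frobenius element `Φ` at `A` and an element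
`u` of the decomposition group fixing `F` and `L` whose restriction to `F₂` has order divisible
by `p`. -/
theorem exists_unram_layer {p : ℕ} (hp : 0 < p) {S : Finset Nat.Primes}
    {F : IntermediateField ℚ Qb} (hF : F.IsUnramifiedOutside S) (L : IntermediateField ℚ Qb)
    [FiniteDimensional ℚ L] {q : Nat.Primes} (hq : q ∉ S) (A : ValuationSubring Qb)
    (hA : A.LiesOverPrime (q : ℕ)) :
    ∃ (F₂ : IntermediateField ℚ Qb) (_ : FiniteDimensional ℚ F₂) (_ : IsGalois ℚ F₂)
      (Φ u : GQ), F ≤ F₂ ∧ A.inertiaSubgroupIn ℚ ≤ F₂.fixingSubgroup ∧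
        A.IsFrobeniusAt Φ (q : ℕ) ∧ u ∈ A.decompositionSubgroup ℚ ∧ u ∈ F.fixingSubgroup ∧
        u ∈ L.fixingSubgroup ∧ p ∣ orderOf (AlgEquiv.restrictNormalHom F₂ u) := by
  classical
  haveI := hF.1
  haveI := isGalois_algebraicClosure_rat
  have hqp : (q : ℕ).Prime := q.2
  obtain ⟨Φ, hΦ⟩ := exists_isFrobeniusAt_algebraicClosure hqp A hA
  -- a finite Galois field containing `F` and `L`
  haveI hFLfd : FiniteDimensional ℚ (F ⊔ L : IntermediateField ℚ Qb) :=
    IntermediateField.finiteDimensional_sup F L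
  obtain ⟨E, hEfd, hEn, hFE, hLE⟩ : ∃ (E : IntermediateField ℚ Qb), FiniteDimensional ℚ E ∧
      Normal ℚ E ∧ F ≤ E ∧ L ≤ E :=
    ⟨IntermediateField.normalClosure ℚ (F ⊔ L : IntermediateField ℚ Qb) Qb,
      normalClosure.is_finiteDimensional ℚ _ _, normalClosure.normal ℚ _ _,
      le_sup_left.trans (IntermediateField.le_normalClosure _),
      le_sup_right.trans (IntermediateField.le_normalClosure _)⟩
  haveI := hEfd
  haveI := hEn
  set m₀ := orderOf (AlgEquiv.restrictNormalHom E Φ) with hm₀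
  have hm₀pos : 0 < m₀ := orderOf_pos _
  have hΦm : Φ ^ m₀ ∈ E.fixingSubgroup := by
    rw [← restrict_eq_one_iff, map_pow]
    exact pow_orderOf_eq_one _
  have hM : 0 < m₀ * p := Nat.mul_pos hm₀pos hp
  have hqN : ¬ (q : ℕ) ∣ (q : ℕ) ^ (m₀ * p) - 1 := not_dvd_pow_sub_one hqp hM
  have hN0 : (q : ℕ) ^ (m₀ * p) - 1 ≠ 0 := fun h => hqN (h ▸ dvd_zero _)
  -- a primitive root of unity of order `q ^ (m₀ p) - 1`
  obtain ⟨ζ, hζ⟩ : ∃ ζ : Qb, IsPrimitiveRoot ζ ((q : ℕ) ^ (m₀ * p) - 1) := by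
    haveI : NeZero ((q : ℕ) ^ (m₀ * p) - 1) := ⟨hN0⟩
    haveI : NeZero ((((q : ℕ) ^ (m₀ * p) - 1 : ℕ) : Qb)) := ⟨by exact_mod_cast hN0⟩
    exact HasEnoughRootsOfUnity.exists_primitiveRoot Qb _
  -- the enlarged set of primes
  let S' : Finset Nat.Primes := S ∪ (((q : ℕ) ^ (m₀ * p) - 1).primeFactors.subtype Nat.Prime)
  have hqS' : q ∉ S' := by
    intro h
    rcases Finset.mem_union.1 h with h | h
    · exact hq h
    · exact hqN (Nat.dvd_of_mem_primeFactors (Finset.mem_subtype.1 h))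
  have hC : (IntermediateField.adjoin ℚ {ζ}).IsUnramifiedOutside S' := by
    refine isUnramifiedOutside_adjoin_rootOfUnity hN0 hζ.pow_eq_one S' fun r hr => ?_
    exact Finset.mem_union_right _
      (Finset.mem_subtype.2 (Nat.mem_primeFactors.2 ⟨r.2, hr, hN0⟩))
  have hF' : F.IsUnramifiedOutside S' := hF.mono Finset.subset_union_left
  have hF₂ := isUnramifiedOutside_normalClosure (hF'.sup hC)
  haveI hF₂n : Normal ℚ (IntermediateField.normalClosure ℚ
      (F ⊔ IntermediateField.adjoin ℚ {ζ} : IntermediateField ℚ Qb) Qb) :=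
    normalClosure.normal ℚ _ _
  have hle : (F ⊔ IntermediateField.adjoin ℚ {ζ} : IntermediateField ℚ Qb) ≤
      IntermediateField.normalClosure ℚ
        (F ⊔ IntermediateField.adjoin ℚ {ζ} : IntermediateField ℚ Qb) Qb :=
    IntermediateField.le_normalClosure _
  have hζmem : ζ ∈ IntermediateField.normalClosure ℚ
      (F ⊔ IntermediateField.adjoin ℚ {ζ} : IntermediateField ℚ Qb) Qb :=
    hle (le_sup_right (a := F) (IntermediateField.mem_adjoin_simple_self ℚ ζ))
  refine ⟨_, hF₂.1, ⟨⟩, Φ, Φ ^ m₀, le_sup_left.trans hle, hF₂.2 q hqS' A hA, hΦ,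
    pow_mem hΦ.mem_decompositionSubgroup _, IntermediateField.fixingSubgroup_antitone hFE hΦm,
    IntermediateField.fixingSubgroup_antitone hLE hΦm, ?_⟩
  -- the order of the restriction of `Φ ^ m₀` is divisible by `p`
  set k := orderOf (AlgEquiv.restrictNormalHom (IntermediateField.normalClosure ℚ
      (F ⊔ IntermediateField.adjoin ℚ {ζ} : IntermediateField ℚ Qb) Qb) (Φ ^ m₀)) with hk
  have h1 : (Φ ^ m₀) ^ k ∈ (IntermediateField.normalClosure ℚ
      (F ⊔ IntermediateField.adjoin ℚ {ζ} : IntermediateField ℚ Qb) Qb).fixingSubgroup := by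
    rw [← restrict_eq_one_iff, map_pow]
    exact pow_orderOf_eq_one _
  have h2 : ((Φ ^ m₀) ^ k) ζ = ζ := by
    rw [IntermediateField.mem_fixingSubgroup_iff] at h1
    exact h1 ζ hζmem
  rw [← pow_mul, frob_pow_rootOfUnity hqp hA hΦ hqN hζ.pow_eq_one] at h2
  have hpos : 1 ≤ (q : ℕ) ^ (m₀ * k) := Nat.one_le_pow _ _ hqp.pos
  have h3 : ζ ^ ((q : ℕ) ^ (m₀ * k) - 1) = 1 := by
    have hζ0 : ζ ≠ 0 := hζ.ne_zero hN0
    have h4 : ζ ^ ((q : ℕ) ^ (m₀ * k) - 1) * ζ = 1 * ζ := by
      rw [← pow_succ, Nat.sub_add_cancel hpos, one_mul]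
      exact h2
    exact mul_right_cancel₀ hζ0 h4
  have h5 := dvd_of_pow_sub_one_dvd hqp.one_lt ((hζ.pow_eq_one_iff_dvd _).1 h3)
  exact (Nat.mul_dvd_mul_iff_left hm₀pos).1 h5

end Fermat.Agent.H49.BS6
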