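import Mathlib
import Fermat.Agent.H49.BS6.UnramLayer
import Fermat.Agent.H3.Cft.CyclicInflGen
import Fermat.Agent.H54.Cft.GO2Interfaces
import Fermat.Agent.H76.Cft.BrauerSInterfaces

/-!
# P-CFT / BRAUER-S row BS-6 (928) = GO2-UNR (933): `S`-level `ℤ/p`-valued 2-cocycles are locally
trivial at the places outside `S`

* `isLocTrivAt_of_unram` : the core statement;
* `unramLocTriv : Fermat.Agent.H54.Cft.UnramLocTrivStatement`;
* `unramTriv : Fermat.Agent.H76.Cft.UnramTrivStatement`.

Arithmetic (helper49): `FrobGen` (Frobenius generates the unramified quotient of the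
decomposition group) and `UnramLayer` (unramified layers of degree divisible by `p`);
group algebra (helper3): `Fermat.Agent.H3.Cft.locTriv_of_cyclic'`.
-/

set_option autoImplicit false
set_option linter.style.haveILetI false
set_option maxSynthPendingDepth 3

namespace Fermat.Agent.H49.BS6

open Fermat.Agent.H54.Cft

/-- **Local triviality outside `S`**: an `S`-level `ℤ/p`-valued 2-cocycle of `G_L` is locally
trivial at every place of `ℚ̄` over a prime outside `S`. -/
theorem isLocTrivAt_of_unram {p : ℕ} [Fact p.Prime] (S : Finset Nat.Primes)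
    (L : IntermediateField ℚ Qbar) [FiniteDimensional ℚ L]
    (x : GalL L × GalL L → ZMod p) (hx : IsCocycle₂ x) (hS : IsSLvl₂ S L x)
    (q : Nat.Primes) (hq : q ∉ S) (A : ValuationSubring Qbar) (hA : A.LiesOverPrime (q : ℕ)) :
    IsLocTrivAt L A x := by
  obtain ⟨F, hF, hinv⟩ := hS
  obtain ⟨F₂, hfd, hgal, Φ, u, hFF₂, hI, hΦ, huD, huF, huL, hup⟩ :=
    exists_unram_layer (Fact.out : p.Prime).pos hF L hq A hA
  haveI := hfd
  haveI := hgal
  let D : Subgroup (GalL L) := (A.decompositionSubgroup ℚ).comap L.fixingSubgroup.subtype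
  let N : Subgroup (GalL L) := F.fixingSubgroup.comap L.fixingSubgroup.subtype
  let e : D →* (F₂ ≃ₐ[ℚ] F₂) :=
    (AlgEquiv.restrictNormalHom F₂).comp (L.fixingSubgroup.subtype.comp D.subtype)
  have hfin : IsOfFinOrder (AlgEquiv.restrictNormalHom F₂ Φ) := isOfFinOrder_of_finite _
  obtain ⟨y, hy1, hy2⟩ := Fermat.Agent.H3.Cft.locTriv_of_cyclic' x hx D N
    (fun g h n m _ _ hn hm => hinv g h n m hn hm) e (AlgEquiv.restrictNormalHom F₂ Φ) hfin
    (fun g => restrict_mem_zpowers_frob F₂ q.2 A hA hI hΦ g.2)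
    ⟨⟨u, huL⟩, huD⟩ huF hup
    (fun g hg => IntermediateField.fixingSubgroup_antitone hFF₂
      ((restrict_eq_one_iff F₂ _).1 hg))
  refine ⟨y, ⟨F₂, hfd, fun g n hg hn hnF => ?_⟩, fun g h hg hh => hy2 g h hg hh⟩
  exact hy1 ⟨g, hg⟩ ⟨n, hn⟩ ((restrict_eq_one_iff F₂ _).2 hnF)

/-- **[UNR-LOC]** (helper54's interface). -/
theorem unramLocTriv : Fermat.Agent.H54.Cft.UnramLocTrivStatement := by
  intro p _ S L _ x hx hS q hq A hA
  exact isLocTrivAt_of_unram S L x hx hS q hq A hA

/-- **[UNR-TRIV]** (helper76's interface). -/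
theorem unramTriv : Fermat.Agent.H76.Cft.UnramTrivStatement := by
  intro p _ S K hK x hx hS A hA
  obtain ⟨q, hq, hAq⟩ := hA
  haveI := hK
  exact isLocTrivAt_of_unram S K x hx hS q hq A hAq

end Fermat.Agent.H49.BS6
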